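import Fermat.Agent.LTF.ThetaUT.U

/-!
# Killing the constant terms

For squarefree `M` and a prime `ℓ ∤ M`, `T_ℓ f - (1 + ℓ^{k-1}) f` is a cusp form for every
`f ∈ M_k(Γ₀(M))`.
-/

set_option autoImplicit false

noncomputable section

open ModularForm Matrix.SpecialLinearGroup UpperHalfPlane Filter Topology
open scoped MatrixGroups ModularForm OnePoint

namespace Fermat.Agent.LTF.ThetaUT

open P2MW.S_ModularForm_heckeT_slash_eq_self_of_mem_Gamma0.ModularForm.HeckeSlashInvariance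

variable {M : ℕ} {k : ℤ}

open ConjAct Pointwise in
/-- the values at the cusps exist. -/
theorem exists_tendsto [NeZero M] (f : ModularForm (CongruenceSubgroup.Gamma0 M) k)
    (g : SL(2, ℤ)) : ∃ c : ℂ, Tendsto (⇑f ∣[k] (mapGL ℝ g)) atImInfty (𝓝 c) := by
  have : ((toConjAct (mapGL ℝ g : GL (Fin 2) ℝ)⁻¹) •
      (CongruenceSubgroup.Gamma0 M : Subgroup (GL (Fin 2) ℝ))).IsArithmetic := by
    simpa [(show Rat.castHom ℝ = algebraMap ℚ ℝ by rfl), map_inv, map_mapGL]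
      using! Subgroup.IsArithmetic.conj
        (CongruenceSubgroup.Gamma0 M : Subgroup (GL (Fin 2) ℝ)) (mapGL ℚ g)⁻¹
  obtain ⟨c, hc, h⟩ := ModularFormClass.exp_decay_sub_atImInfty'
    (ModularForm.translate f (mapGL ℝ g))
  refine ⟨valueAtInfty (ModularForm.translate f (mapGL ℝ g)), ?_⟩
  rw [← tendsto_sub_nhds_zero_iff]
  refine h.trans_tendsto ?_
  have h1 : Tendsto (fun τ : ℍ => -c * τ.im) atImInfty atBot :=
    Tendsto.const_mul_atTop_of_neg (neg_neg_of_pos hc) tendsto_comap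
  exact Real.tendsto_exp_atBot.comp h1

/-- slashing by an integral translation does not change the value at infinity. -/
theorem tendsto_slash_T {F : ℍ → ℂ} {c : ℂ} (hF : Tendsto F atImInfty (𝓝 c)) (n : ℤ) :
    Tendsto (F ∣[k] (mapGL ℝ (ModularGroup.T ^ n) : GL (Fin 2) ℝ)) atImInfty (𝓝 c) := by
  generalize hg : ModularGroup.T ^ n = g
  have h10 : (mapGL ℝ g : GL (Fin 2) ℝ) 1 0 = 0 := by
    rw [mapGL_apply, ← hg, ModularGroup.coe_T_zpow]; simp
  have h11 : (mapGL ℝ g : GL (Fin 2) ℝ) 1 1 = 1 := by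
    rw [mapGL_apply, ← hg, ModularGroup.coe_T_zpow]; simp
  have e : F ∣[k] (mapGL ℝ g : GL (Fin 2) ℝ) = fun τ => F ((mapGL ℝ g : GL (Fin 2) ℝ) • τ) := by
    funext τ
    have hden : denom (mapGL ℝ g : GL (Fin 2) ℝ) τ = 1 := by
      rw [denom, h10, h11]; simp
    rw [ModularForm.slash_apply, hden]
    simp [σ]
  rw [e]
  exact hF.comp (tendsto_smul_atImInfty h10)

theorem tendsto_slash_heckeMatrix {F : ℍ → ℂ} {c : ℂ} (hF : Tendsto F atImInfty (𝓝 c)) {p : ℕ}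
    (hp : p ≠ 0) (j : ℕ) :
    Tendsto (F ∣[k] heckeMatrix p j) atImInfty (𝓝 ((p : ℂ)⁻¹ * c)) := by
  have e : F ∣[k] heckeMatrix p j = fun τ => (p : ℂ)⁻¹ * F (heckeMatrix p j • τ) := by
    funext τ
    exact slash_heckeMatrix_apply k hp j F τ
  rw [e]
  refine (hF.comp (tendsto_smul_atImInfty ?_)).const_mul _
  rw [val_heckeMatrix hp]
  simp

theorem tendsto_slash_heckeDiagMatrix {F : ℍ → ℂ} {c : ℂ} (hF : Tendsto F atImInfty (𝓝 c)) {p : ℕ}
    (hp : p ≠ 0) :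
    Tendsto (F ∣[k] heckeDiagMatrix p) atImInfty (𝓝 ((p : ℂ) ^ (k - 1) * c)) := by
  have e : F ∣[k] heckeDiagMatrix p = fun τ => (p : ℂ) ^ (k - 1) * F (heckeDiagMatrix p • τ) := by
    funext τ
    exact slash_heckeDiagMatrix_apply k hp F τ
  rw [e]
  refine (hF.comp (tendsto_smul_atImInfty ?_)).const_mul _
  rw [val_heckeDiagMatrix hp]
  simp

/-- For squarefree level the cusp is determined by the gcd of the lower left entry. -/
theorem exists_eq_mul_T (hM : Squarefree M) (g g' : SL(2, ℤ))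
    (h : Int.gcd (g 1 0) M = Int.gcd (g' 1 0) M) :
    ∃ δ ∈ CongruenceSubgroup.Gamma0 M, ∃ n : ℤ, g' = δ * g * ModularGroup.T ^ n := by
  obtain ⟨M₁, hM₁⟩ : Int.gcd (g 1 0) M ∣ M := by
    have := Int.gcd_dvd_right (g 1 0) (M : ℤ)
    exact_mod_cast this
  set g₀ := Int.gcd (g 1 0) M with hg₀
  have hcop : Nat.Coprime g₀ M₁ := by
    rw [hM₁] at hM
    exact Nat.coprime_of_squarefree_mul hM
  have key : ∀ c : ℤ, Int.gcd c M = g₀ → IsCoprime c (M₁ : ℤ) := by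
    intro c hc
    rw [Int.isCoprime_iff_gcd_eq_one]
    have h1 : Int.gcd c M₁ ∣ g₀ := by
      rw [← hc]
      refine Nat.dvd_gcd ?_ ?_
      · have := Int.gcd_dvd_left c (M₁ : ℤ)
        exact Int.natCast_dvd.mp this
      · have h2 := Int.gcd_dvd_right c (M₁ : ℤ)
        have h3 : Int.gcd c M₁ ∣ M₁ := by exact_mod_cast h2
        rw [Int.natAbs_natCast, hM₁]
        exact h3.mul_left _
    have h2 : Int.gcd c M₁ ∣ M₁ := by
      have := Int.gcd_dvd_right c (M₁ : ℤ)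
      exact_mod_cast this
    exact Nat.eq_one_of_dvd_coprimes hcop h1 h2
  have hc1 := key (g 1 0) rfl
  have hc2 := key (g' 1 0) h.symm
  obtain ⟨u, v, huv⟩ := hc1.mul_left hc2
  have hd1 : (g₀ : ℤ) ∣ g 1 0 := Int.gcd_dvd_left _ _
  have hd2 : (g₀ : ℤ) ∣ g' 1 0 := by
    rw [h]; exact Int.gcd_dvd_left _ _
  set n : ℤ := -(u * (g' 1 0 * g 1 1 - g 1 0 * g' 1 1)) with hn
  have hT : ∀ m : ℤ, ((g' * ModularGroup.T ^ m * g⁻¹ : SL(2, ℤ)) : Matrix (Fin 2) (Fin 2) ℤ) 1 0 =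
      g' 1 0 * g 1 1 - g 1 0 * (g' 1 1 + m * g' 1 0) := by
    intro m
    rw [Matrix.SpecialLinearGroup.coe_mul, Matrix.SpecialLinearGroup.coe_mul,
      Matrix.SpecialLinearGroup.coe_inv, Matrix.adjugate_fin_two, ModularGroup.coe_T_zpow]
    simp [Matrix.mul_apply, Fin.sum_univ_two]
    ring
  refine ⟨g' * ModularGroup.T ^ (-n) * g⁻¹, ?_, n, ?_⟩
  · rw [CongruenceSubgroup.Gamma0_mem, ZMod.intCast_zmod_eq_zero_iff_dvd]
    rw [hT, hM₁, Nat.cast_mul]
    refine IsCoprime.mul_dvd (Nat.isCoprime_iff_coprime.mpr hcop) ?_ ?_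
    · exact dvd_sub (hd2.mul_right _) (hd1.mul_right _)
    · refine ⟨v * (g' 1 0 * g 1 1 - g 1 0 * g' 1 1), ?_⟩
      rw [hn]
      linear_combination -(g' 1 0 * g 1 1 - g 1 0 * g' 1 1) * huv
  · group

section T

variable {p : ℕ} [hpF : Fact p.Prime]

theorem heckeRep_entries (x : OnePoint (ZMod p)) :
    (heckeRep p x : GL (Fin 2) ℝ) 1 0 = 0 ∧ ∃ a d : ℕ, a * d = p ∧
      (heckeRep p x : GL (Fin 2) ℝ) 0 0 = a ∧ (heckeRep p x : GL (Fin 2) ℝ) 1 1 = d := by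
  have hp0 : p ≠ 0 := hpF.out.ne_zero
  induction x using OnePoint.rec with
  | infty =>
    rw [heckeRep_infty]
    refine ⟨?_, p, 1, mul_one p, ?_, ?_⟩ <;> rw [val_heckeDiagMatrix hp0] <;> simp
  | coe j =>
    rw [heckeRep_coe]
    refine ⟨?_, 1, p, one_mul p, ?_, ?_⟩ <;> rw [val_heckeMatrix hp0] <;> simp

theorem gcd_eq_of_heckeRep_mul (hpM : ¬ p ∣ M) {g g' : SL(2, ℤ)} {x y : OnePoint (ZMod p)}
    (h : heckeRep p x * mapGL ℝ g = mapGL ℝ g' * heckeRep p y) :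
    Int.gcd (g 1 0) M = Int.gcd (g' 1 0) M := by
  obtain ⟨hx0, a, d, had, hxa, hxd⟩ := heckeRep_entries x
  obtain ⟨hy0, a', d', had', hya, hyd⟩ := heckeRep_entries y
  have h1 := congrArg (fun m : GL (Fin 2) ℝ => (m : Matrix (Fin 2) (Fin 2) ℝ) 1 0) h
  simp only [Matrix.GeneralLinearGroup.coe_mul, Matrix.mul_apply, Fin.sum_univ_two, mapGL_apply,
    hx0, hxd, hya, hy0, zero_mul, zero_add, mul_zero, add_zero] at h1
  have h2 : (d : ℤ) * g 1 0 = g' 1 0 * (a' : ℤ) := by exact_mod_cast h1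
  have hcop : ∀ b c : ℕ, b * c = p → Nat.Coprime b M ∧ Nat.Coprime c M := by
    intro b c hbc
    have hc := (Nat.Prime.coprime_iff_not_dvd hpF.out).mpr hpM
    rw [← hbc] at hc
    exact ⟨Nat.Coprime.coprime_dvd_left (Dvd.intro _ rfl) hc,
      Nat.Coprime.coprime_dvd_left (Dvd.intro_left _ rfl) hc⟩
  have h3 := congrArg Int.natAbs h2
  rw [Int.natAbs_mul, Int.natAbs_mul, Int.natAbs_natCast, Int.natAbs_natCast] at h3
  rw [Int.gcd, Int.gcd, Int.natAbs_natCast,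
    ← Nat.Coprime.gcd_mul_left_cancel (g 1 0).natAbs (hcop a d had).2, h3,
    Nat.Coprime.gcd_mul_right_cancel _ (hcop a' d' had').1]

theorem tendsto_slash_congr (hM : Squarefree M)
    (f : ModularForm (CongruenceSubgroup.Gamma0 M) k) {g g' : SL(2, ℤ)}
    (h : Int.gcd (g 1 0) M = Int.gcd (g' 1 0) M) {c : ℂ}
    (hc : Tendsto (⇑f ∣[k] (mapGL ℝ g)) atImInfty (𝓝 c)) :
    Tendsto (⇑f ∣[k] (mapGL ℝ g')) atImInfty (𝓝 c) := by
  obtain ⟨δ, hδ, n, rfl⟩ := exists_eq_mul_T hM g g' h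
  rw [map_mul, map_mul, SlashAction.slash_mul, SlashAction.slash_mul,
    SlashInvariantFormClass.slash_action_eq f _ (Subgroup.mem_map_of_mem (mapGL ℝ) hδ)]
  exact tendsto_slash_T hc n

/-- the values of `T_p f` at the cusps. -/
theorem tendsto_heckeT_slash (hM : Squarefree M) (hpM : ¬ p ∣ M)
    (f : ModularForm (CongruenceSubgroup.Gamma0 M) k) (g : SL(2, ℤ)) {c : ℂ}
    (hc : Tendsto (⇑f ∣[k] (mapGL ℝ g)) atImInfty (𝓝 c)) :
    Tendsto (heckeT k p ⇑f ∣[k] (mapGL ℝ g)) atImInfty (𝓝 ((1 + (p : ℂ) ^ (k - 1)) * c)) := by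
  classical
  have hp0 : p ≠ 0 := hpF.out.ne_zero
  rw [heckeT_eq_sum_onePoint k ⇑f, SlashAction.sum_slash]
  let w : OnePoint (ZMod p) → ℂ := fun y => y.elim ((p : ℂ) ^ (k - 1)) (fun _ => (p : ℂ)⁻¹)
  have hw : ∑ y, w y = 1 + (p : ℂ) ^ (k - 1) := by
    have h1 := Fintype.sum_option w
    have h2 : ∑ y, w y = ∑ y : Option (ZMod p), w y := rfl
    rw [h2, h1]
    have h3 : ∀ i : ZMod p, w (some i) = (p : ℂ)⁻¹ := fun i => rfl
    have h4 : w none = (p : ℂ) ^ (k - 1) := rfl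
    simp only [h3, h4, Finset.sum_const, Finset.card_univ, ZMod.card, nsmul_eq_mul]
    rw [mul_inv_cancel₀ (by exact_mod_cast hp0), add_comm]
  have key : ∀ x : OnePoint (ZMod p),
      Tendsto ((⇑f ∣[k] heckeRep p x) ∣[k] mapGL ℝ g) atImInfty
        (𝓝 (w (redMatrix p g • x) * c)) := by
    intro x
    obtain ⟨g', -, hmul⟩ := heckeRep_mul (p := p) (N := 1) (by
      rw [Nat.dvd_one]; exact hpF.out.ne_one) g (by simp) x
    rw [← SlashAction.slash_mul, hmul, SlashAction.slash_mul]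
    have h1 := tendsto_slash_congr hM f (gcd_eq_of_heckeRep_mul hpM hmul) hc
    generalize redMatrix p g • x = y
    induction y using OnePoint.rec with
    | infty => exact tendsto_slash_heckeDiagMatrix h1 hp0
    | coe j => exact tendsto_slash_heckeMatrix h1 hp0 _
  have h1 := tendsto_finsetSum (Finset.univ : Finset (OnePoint (ZMod p)))
    (fun x _ => key x)
  have h2 : ∑ x, w (redMatrix p g • x) * c = (1 + (p : ℂ) ^ (k - 1)) * c := by
    rw [← Finset.sum_mul, ← hw]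
    congr 1
    exact Equiv.sum_comp (MulAction.toPerm (redMatrix p g)) w
  rw [h2] at h1
  refine h1.congr (fun τ => ?_)
  rw [Finset.sum_apply]

/-- **(d)** `T_p f - (1 + p^{k-1}) f` is a cusp form. -/
theorem isZeroAt [NeZero M] (hM : Squarefree M) (hpM : ¬ p ∣ M)
    (f : ModularForm (CongruenceSubgroup.Gamma0 M) k) {c : OnePoint ℝ}
    (hc : IsCusp c (CongruenceSubgroup.Gamma0 M : Subgroup (GL (Fin 2) ℝ))) :
    c.IsZeroAt (heckeT k p ⇑f - (1 + (p : ℂ) ^ (k - 1)) • ⇑f) k := by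
  rw [Subgroup.IsArithmetic.isCusp_iff_isCusp_SL2Z] at hc
  rw [OnePoint.isZeroAt_iff_forall_SL2Z hc]
  intro g _
  obtain ⟨v, hv⟩ := exists_tendsto f g
  have h1 := tendsto_heckeT_slash hM hpM f g hv
  have h2 := h1.sub (hv.const_mul (1 + (p : ℂ) ^ (k - 1)))
  rw [sub_self] at h2
  refine h2.congr (fun τ => ?_)
  generalize (1 + (p : ℂ) ^ (k - 1)) = c₀
  generalize heckeT k p ⇑f = F
  generalize ⇑f = G
  have e : (F - c₀ • G) ∣[k] g = (F ∣[k] (mapGL ℝ g : GL (Fin 2) ℝ)) - c₀ •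
      (G ∣[k] (mapGL ℝ g : GL (Fin 2) ℝ)) := by
    change (F - c₀ • G) ∣[k] (mapGL ℝ g : GL (Fin 2) ℝ) = _
    rw [sub_eq_add_neg, sub_eq_add_neg, SlashAction.add_slash, SlashAction.neg_slash,
      ModularForm.smul_slash]
    congr 3
    simp [σ]
  rw [e]
  rfl

end T

/-- The cusp form `T_p f - (1 + p^{k-1}) f`. -/
def cuspT [NeZero M] (hM : Squarefree M) {p : ℕ} (hp : p.Prime) (hpM : ¬ p ∣ M)
    (f : ModularForm (CongruenceSubgroup.Gamma0 M) k) :
    CuspForm (CongruenceSubgroup.Gamma0 M) k where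
  toFun := ⇑(ModularForm.heckeTLin k hp hpM f - (1 + (p : ℂ) ^ (k - 1)) • f)
  slash_action_eq' γ hγ := SlashInvariantFormClass.slash_action_eq
    (ModularForm.heckeTLin k hp hpM f - (1 + (p : ℂ) ^ (k - 1)) • f) γ hγ
  holo' := ModularFormClass.holo (ModularForm.heckeTLin k hp hpM f - (1 + (p : ℂ) ^ (k - 1)) • f)
  zero_at_cusps' := fun {c} hc => by
    have := Fact.mk hp
    exact isZeroAt hM hpM f hc

theorem coe_cuspT [NeZero M] (hM : Squarefree M) {p : ℕ} (hp : p.Prime) (hpM : ¬ p ∣ M)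
    (f : ModularForm (CongruenceSubgroup.Gamma0 M) k) :
    ⇑(cuspT hM hp hpM f) = heckeT k p ⇑f - (1 + (p : ℂ) ^ (k - 1)) • ⇑f := rfl

theorem coeff_cuspT [NeZero M] (hM : Squarefree M) {p : ℕ} (hp : p.Prime) (hpM : ¬ p ∣ M)
    (f : ModularForm (CongruenceSubgroup.Gamma0 M) k) (n : ℕ) :
    (qExpansion 1 (cuspT hM hp hpM f)).coeff n = (qExpansion 1 f).coeff (n * p) +
      (if p ∣ n then (p : ℂ) ^ (k - 1) * (qExpansion 1 f).coeff (n / p) else 0) -
      (1 + (p : ℂ) ^ (k - 1)) * (qExpansion 1 f).coeff n := by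
  have h1 := one_mem_strictPeriods_Gamma0 M
  have h2 := ModularForm.qExpansion_sub one_pos h1 (ModularForm.heckeTLin k hp hpM f)
    ((1 + (p : ℂ) ^ (k - 1)) • f)
  have h3 := ModularForm.qExpansion_smul one_pos h1 (1 + (p : ℂ) ^ (k - 1)) f
  have h4 : (qExpansion 1 (cuspT hM hp hpM f)) =
      qExpansion 1 (⇑(ModularForm.heckeTLin k hp hpM f) - ⇑((1 + (p : ℂ) ^ (k - 1)) • f)) := rfl
  have h5 : qExpansion 1 ⇑((1 + (p : ℂ) ^ (k - 1)) • f) =
      (1 + (p : ℂ) ^ (k - 1)) • qExpansion 1 ⇑f := h3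
  rw [h4, h2, h5, map_sub, map_smul, smul_eq_mul]
  congr 1
  exact ModularFormClass.qCoeff_heckeT f h1 hp.ne_zero n

/-- **(d)** -/
theorem exists_cusp [NeZero M] (hM : Squarefree M) {p : ℕ} (hp : p.Prime) (hpM : ¬ p ∣ M)
    (f : ModularForm (CongruenceSubgroup.Gamma0 M) 2) :
    ∃ g : CuspForm (CongruenceSubgroup.Gamma0 M) 2, ∀ n : ℕ,
      (qExpansion 1 g).coeff n = (qExpansion 1 f).coeff (n * p) +
        (if p ∣ n then (p : ℂ) * (qExpansion 1 f).coeff (n / p) else 0) -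
        (1 + (p : ℂ)) * (qExpansion 1 f).coeff n := by
  refine ⟨cuspT hM hp hpM f, fun n => ?_⟩
  have := coeff_cuspT hM hp hpM f n
  have e : (2 : ℤ) - 1 = 1 := rfl
  rw [e, zpow_one] at this
  exact this

end Fermat.Agent.LTF.ThetaUT
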