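import Mathlib
import Fermat.Prelude.Def_ModularForm_HeckeOperatorForms
import Fermat.Prelude.Def_FLTPrelim_Modularity
import Fermat.Prelude.Thm_ModularFormClass_qCoeff_heckeU
import Fermat.Prelude.Thm_ModularFormClass_qCoeff_heckeT

/-!
# `U_p` lowers the level

For `p ∣ L` the operator `U_p` maps `M_k(Γ₀(pL))` to `M_k(Γ₀(L))`.
-/

set_option autoImplicit false

noncomputable section

open ModularForm Matrix.SpecialLinearGroup UpperHalfPlane
open scoped MatrixGroups ModularForm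

namespace Fermat.Agent.LTF.ThetaUT

open P2MW.S_ModularForm_heckeU_slash_eq_self_of_mem_Gamma0.ModularForm.HeckeSlashInvariance
  (heckeU_eq_sum_zmod affinePerm heckeMatrix_mul_of_dvd)

variable {p L : ℕ} (k : ℤ)

theorem heckeU_slash_mapGL_of_dvd [NeZero p] (hpL : p ∣ L) (f : ℍ → ℂ)
    (hf : ∀ γ ∈ (CongruenceSubgroup.Gamma0 (p * L) : Subgroup (GL (Fin 2) ℝ)), f ∣[k] γ = f)
    (g : SL(2, ℤ)) (hg : g ∈ CongruenceSubgroup.Gamma0 L) :
    heckeU k p f ∣[k] (mapGL ℝ g) = heckeU k p f := by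
  have hcN : (L : ℤ) ∣ g 1 0 :=
    (ZMod.intCast_zmod_eq_zero_iff_dvd _ _).mp (CongruenceSubgroup.Gamma0_mem.mp hg)
  have hc : (p : ℤ) ∣ g 1 0 := (Int.natCast_dvd_natCast.mpr hpL).trans hcN
  rw [heckeU_eq_sum_zmod k f, SlashAction.sum_slash]
  calc ∑ x : ZMod p, (f ∣[k] heckeMatrix p x.val) ∣[k] mapGL ℝ g
      = ∑ x : ZMod p, f ∣[k] heckeMatrix p
          (affinePerm g ((ZMod.intCast_zmod_eq_zero_iff_dvd _ _).mpr hc) x).val := by
        refine Finset.sum_congr rfl fun x _ ↦ ?_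
        obtain ⟨g', hg', hmul⟩ := heckeMatrix_mul_of_dvd g hc x
        have hg'N : g' ∈ CongruenceSubgroup.Gamma0 (p * L) := by
          rw [CongruenceSubgroup.Gamma0_mem, hg', ZMod.intCast_zmod_eq_zero_iff_dvd, Nat.cast_mul]
          exact mul_dvd_mul_left _ hcN
        rw [← SlashAction.slash_mul, hmul, SlashAction.slash_mul,
          hf _ (Subgroup.mem_map_of_mem (mapGL ℝ) hg'N)]
    _ = ∑ x : ZMod p, f ∣[k] heckeMatrix p x.val :=
        Equiv.sum_comp (affinePerm g _) (fun x ↦ f ∣[k] heckeMatrix p x.val)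

/-- `U_p : M_k(Γ₀(pL)) → M_k(Γ₀(L))` for `p ∣ L`. -/
def lowerU [NeZero p] [NeZero L] (hpL : p ∣ L)
    (f : ModularForm (CongruenceSubgroup.Gamma0 (p * L)) k) :
    ModularForm (CongruenceSubgroup.Gamma0 L) k where
  toFun := heckeU k p ⇑f
  slash_action_eq' := by
    rintro _ ⟨g, hg, rfl⟩
    exact heckeU_slash_mapGL_of_dvd k hpL (⇑f)
      (fun γ hγ => SlashInvariantFormClass.slash_action_eq f γ hγ) g hg
  holo' := mdifferentiable_heckeU (ModularFormClass.holo f) k p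
  bdd_at_cusps' := fun {c} hc => by
    refine ModularFormClass.isBoundedAt_heckeU f p ?_
    have : NeZero (p * L) := ⟨mul_ne_zero (NeZero.ne p) (NeZero.ne L)⟩
    rw [Subgroup.IsArithmetic.isCusp_iff_isCusp_SL2Z] at hc ⊢
    exact hc

@[simp] theorem coe_lowerU [NeZero p] [NeZero L] (hpL : p ∣ L)
    (f : ModularForm (CongruenceSubgroup.Gamma0 (p * L)) k) :
    ⇑(lowerU k hpL f) = heckeU k p ⇑f := rfl

theorem one_mem_strictPeriods_Gamma0 (N : ℕ) :
    (1 : ℝ) ∈ (CongruenceSubgroup.Gamma0 N : Subgroup (GL (Fin 2) ℝ)).strictPeriods := by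
  rw [CongruenceSubgroup.strictPeriods_Gamma0]
  exact AddSubgroup.mem_zmultiples 1

theorem coeff_lowerU [NeZero p] [NeZero L] (hpL : p ∣ L)
    (f : ModularForm (CongruenceSubgroup.Gamma0 (p * L)) k) (n : ℕ) :
    (qExpansion 1 (lowerU k hpL f)).coeff n = (qExpansion 1 f).coeff (p * n) := by
  have h := ModularFormClass.qCoeff_heckeU f (one_mem_strictPeriods_Gamma0 (p * L))
    (NeZero.ne p) n
  rw [mul_comm p n]
  exact h

/-- **(c)** -/
theorem exists_U [NeZero p] [NeZero L] (hpL : p ∣ L)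
    (f : ModularForm (CongruenceSubgroup.Gamma0 (p * L)) k) :
    ∃ g : ModularForm (CongruenceSubgroup.Gamma0 L) k, ∀ n : ℕ,
      (qExpansion 1 g).coeff n = (qExpansion 1 f).coeff (p * n) :=
  ⟨lowerU k hpL f, coeff_lowerU k hpL f⟩

/-- **(c)**, applied twice with `p = 2`. -/
theorem exists_U_four {M : ℕ} [NeZero M] (hM : 2 ∣ M)
    (f : ModularForm (CongruenceSubgroup.Gamma0 (4 * M)) k) :
    ∃ g : ModularForm (CongruenceSubgroup.Gamma0 M) k, ∀ n : ℕ,
      (qExpansion 1 g).coeff n = (qExpansion 1 f).coeff (4 * n) := by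
  have e : 4 * M = 2 * (2 * M) := by ring
  revert f
  rw [e]
  intro f
  have : NeZero (2 * M) := ⟨mul_ne_zero two_ne_zero (NeZero.ne M)⟩
  obtain ⟨g₁, h₁⟩ := exists_U k (p := 2) (L := 2 * M) (Dvd.intro _ rfl) f
  obtain ⟨g, h⟩ := exists_U k (p := 2) (L := M) hM g₁
  refine ⟨g, fun n => ?_⟩
  rw [h, h₁, ← mul_assoc]; rfl

end Fermat.Agent.LTF.ThetaUT
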